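import Fermat.Agent.Row24.TwoTerm.Locus

/-!
# The locus where both cohomology groups vanish
-/

set_option autoImplicit false

noncomputable section

open TensorProduct LinearMap

namespace Fermat.Agent.Row24

universe u v w

variable {A : Type u} [CommRing A] {P N : Type v} [AddCommGroup P] [Module A P] [AddCommGroup N]
  [Module A N]

/-- The points where the fibre of the complex is exact. -/
def vanishBoth (d : P →ₗ[A] N) : Set (PrimeSpectrum A) :=
  {p | Function.Bijective (d.baseChange p.asIdeal.ResidueField)}

variable {d : P →ₗ[A] N}

theorem ker_ringHom_residueField (p : PrimeSpectrum A) :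
    p.asIdeal = RingHom.ker (algebraMap A p.asIdeal.ResidueField) :=
  (Ideal.ker_algebraMap_residueField p.asIdeal).symm

namespace Replacement

variable (R : Replacement d) [Module.Projective A P] [Module.Projective A N]

theorem finrank_ker_of_surjective (L : Type w) [Field L] [Algebra A L] (p : PrimeSpectrum A)
    (hp : p.asIdeal = RingHom.ker (algebraMap A L)) (hs : Function.Surjective (d.baseChange L)) :
    (Module.finrank L (ker (d.baseChange L)) : ℤ) = R.euler p := by
  have h := R.finrank_ker_sub_finrank_coker L p hp
  have : Subsingleton ((L ⊗[A] N) ⧸ range (d.baseChange L)) :=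
    Submodule.Quotient.subsingleton_iff.mpr (range_eq_top.2 hs)
  rwa [Module.finrank_zero_of_subsingleton (M := (L ⊗[A] N) ⧸ range (d.baseChange L)),
    Nat.cast_zero, sub_zero] at h

theorem injective_iff_euler (L : Type w) [Field L] [Algebra A L] (p : PrimeSpectrum A)
    (hp : p.asIdeal = RingHom.ker (algebraMap A L)) (hs : Function.Surjective (d.baseChange L)) :
    Function.Injective (d.baseChange L) ↔ R.euler p = 0 := by
  have hf := (R.finite_projective_ker L hs).1
  rw [← R.finrank_ker_of_surjective L p hp hs, Nat.cast_eq_zero, Submodule.finrank_eq_zero,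
    ker_eq_bot]

theorem vanishBoth_eq [Module.Finite A (N ⧸ range d)] :
    vanishBoth d = vanishH1 d ∩ {p | R.euler p = 0} := by
  ext p
  rw [Set.mem_inter_iff, mem_vanishH1_iff_surjective, vanishBoth, Set.mem_ofPred_eq,
    Set.mem_ofPred_eq]
  constructor
  · exact fun h => ⟨h.2, (R.injective_iff_euler _ p (ker_ringHom_residueField p) h.2).1 h.1⟩
  · exact fun h => ⟨(R.injective_iff_euler _ p (ker_ringHom_residueField p) h.1).2 h.2, h.1⟩

include R in
/-- Exactness after base change is detected at the points. -/
theorem bijective_baseChange_iff [Module.Finite A (N ⧸ range d)] (B : Type w) [CommRing B]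
    [Algebra A B] :
    Function.Bijective (d.baseChange B) ↔
      ∀ q : PrimeSpectrum B, q.comap (algebraMap A B) ∈ vanishBoth d := by
  simp only [R.vanishBoth_eq, Set.mem_inter_iff, Set.mem_ofPred_eq]
  have hker : ∀ q : PrimeSpectrum B, (q.comap (algebraMap A B)).asIdeal =
      RingHom.ker (algebraMap A q.asIdeal.ResidueField) := fun q => by
    rw [IsScalarTower.algebraMap_eq A B q.asIdeal.ResidueField, ← RingHom.comap_ker,
      Ideal.ker_algebraMap_residueField]
    rfl
  constructor
  · intro h q
    refine ⟨(surjective_baseChange_iff B).1 h.2 q, ?_⟩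
    refine (R.injective_iff_euler _ _ (hker q) (surjective_baseChange_of_tower h.2)).1 ?_
    rw [← ker_eq_bot, ← Submodule.subsingleton_iff_eq_bot]
    have : Subsingleton (ker (d.baseChange B)) :=
      Submodule.subsingleton_iff_eq_bot.2 (ker_eq_bot.2 h.1)
    exact (kerBaseChangeTower q.asIdeal.ResidueField h.2).symm.toEquiv.subsingleton
  · intro h
    have hs := (surjective_baseChange_iff B).2 fun q => (h q).1
    refine ⟨?_, hs⟩
    obtain ⟨hf, hp⟩ := R.finite_projective_ker B hs
    rw [← ker_eq_bot, ← Submodule.subsingleton_iff_eq_bot,
      ← Module.rankAtStalk_eq_zero_iff_subsingleton (R := B)]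
    funext q
    rw [Module.rankAtStalk_eq, Pi.zero_apply]
    refine (LinearEquiv.finrank_eq (kerBaseChangeTower q.asIdeal.ResidueField hs)).trans ?_
    have := R.finrank_ker_of_surjective _ _ (hker q) (surjective_baseChange_of_tower hs)
    rw [(h q).2] at this
    exact_mod_cast this

end Replacement

/-- The locus of exact fibres is open. -/
theorem IsFiniteComplex.isOpen_vanishBoth [Module.Projective A P] [Module.Projective A N]
    (h : IsFiniteComplex d) : IsOpen (vanishBoth d) := by
  obtain ⟨R⟩ := h.nonempty_replacement
  have := h.finite_coker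
  rw [R.vanishBoth_eq]
  exact isOpen_vanishH1.inter (R.isLocallyConstant_euler {0})

/-- A base change of the complex is exact iff it is exact at every point. -/
theorem IsFiniteComplex.bijective_baseChange_iff [Module.Projective A P] [Module.Projective A N]
    (h : IsFiniteComplex d) (B : Type w) [CommRing B] [Algebra A B] :
    Function.Bijective (d.baseChange B) ↔
      ∀ q : PrimeSpectrum B, q.comap (algebraMap A B) ∈ vanishBoth d := by
  obtain ⟨R⟩ := h.nonempty_replacement
  have := h.finite_coker
  exact R.bijective_baseChange_iff B

end Fermat.Agent.Row24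

end
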