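import Fermat.Agent.Row24.TwoTerm.Basic
import Mathlib.RingTheory.Spectrum.Prime.FreeLocus
import Mathlib.RingTheory.LocalRing.Module
import Mathlib.RingTheory.Support
import Mathlib.RingTheory.Flat.FaithfullyFlat.Basic

/-!
# The locus `H¹ = 0`, base change of `H⁰`, and local constancy of `h⁰ - h¹`
-/

set_option autoImplicit false

noncomputable section

open TensorProduct LinearMap

namespace Fermat.Agent.Row24

universe u v w

variable {A : Type u} [CommRing A] {P N : Type v} [AddCommGroup P] [Module A P] [AddCommGroup N]
  [Module A N] (d : P →ₗ[A] N)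

/-- The points of `Spec A` where `H¹` vanishes. -/
def vanishH1 : Set (PrimeSpectrum A) := (Module.support A (N ⧸ range d))ᶜ

variable {d}

theorem isOpen_vanishH1 [Module.Finite A (N ⧸ range d)] : IsOpen (vanishH1 d) := by
  rw [vanishH1, Module.support_eq_zeroLocus]
  exact (PrimeSpectrum.isClosed_zeroLocus _).isOpen_compl

theorem mem_vanishH1_iff_surjective [Module.Finite A (N ⧸ range d)] (p : PrimeSpectrum A) :
    p ∈ vanishH1 d ↔ Function.Surjective (d.baseChange p.asIdeal.ResidueField) := by
  rw [vanishH1, Set.mem_compl_iff, Module.mem_support_iff_nontrivial_residueField_tensorProduct,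
    not_nontrivial_iff_subsingleton, ← range_eq_top, ← Submodule.Quotient.subsingleton_iff,
    (cokerBaseChange p.asIdeal.ResidueField d).toEquiv.subsingleton_congr]

section Surjective

variable (B : Type w) [CommRing B] [Algebra A B]

theorem surjective_baseChange_iff [Module.Finite A (N ⧸ range d)] :
    Function.Surjective (d.baseChange B) ↔
      ∀ q : PrimeSpectrum B, q.comap (algebraMap A B) ∈ vanishH1 d := by
  set H := N ⧸ range d with hH
  have key : ∀ q : PrimeSpectrum B, q.comap (algebraMap A B) ∈ vanishH1 d ↔
      q ∉ Module.support B (B ⊗[A] H) := fun q => by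
    let p := q.comap (algebraMap A B)
    let ψ := Ideal.ResidueField.mapₐ p.asIdeal q.asIdeal (Algebra.ofId A B) rfl
    let alg : Algebra p.asIdeal.ResidueField q.asIdeal.ResidueField := ψ.toRingHom.toAlgebra
    have tow : IsScalarTower A p.asIdeal.ResidueField q.asIdeal.ResidueField :=
      IsScalarTower.of_algebraMap_eq fun a => (ψ.commutes a).symm
    rw [vanishH1, Set.mem_compl_iff, Module.mem_support_iff_nontrivial_residueField_tensorProduct,
      Module.mem_support_iff_nontrivial_residueField_tensorProduct,
      (AlgebraTensorModule.cancelBaseChange A B q.asIdeal.ResidueField q.asIdeal.ResidueField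
        H).nontrivial_congr,
      ← (AlgebraTensorModule.cancelBaseChange A p.asIdeal.ResidueField q.asIdeal.ResidueField
        q.asIdeal.ResidueField H).nontrivial_congr,
      Module.FaithfullyFlat.nontrivial_tensorProduct_iff_right (R := p.asIdeal.ResidueField)
        (M := q.asIdeal.ResidueField)]
  rw [← range_eq_top, ← Submodule.Quotient.subsingleton_iff,
    (cokerBaseChange B d).toEquiv.subsingleton_congr, ← Module.support_eq_empty_iff (R := B),
    Set.eq_empty_iff_forall_notMem]
  exact forall_congr' fun q => (key q).symm

variable {B}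

/-- Further base change keeps `H¹ = 0`. -/
theorem surjective_baseChange_of_tower {C : Type*} [CommRing C] [Algebra A C] [Algebra B C]
    [IsScalarTower A B C] (h : Function.Surjective (d.baseChange B)) :
    Function.Surjective (d.baseChange C) := by
  have h' := baseChange_surjective C h
  rw [baseChange_baseChange] at h'
  intro z
  obtain ⟨w, hw⟩ := h' ((AlgebraTensorModule.cancelBaseChange A B C C N).symm z)
  refine ⟨AlgebraTensorModule.cancelBaseChange A B C C P w, ?_⟩
  simpa using congrArg (AlgebraTensorModule.cancelBaseChange A B C C N) hw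

/-- Where `H¹ = 0`, `H⁰` commutes with base change. -/
def kerBaseChangeTower [Module.Projective A N] (C : Type*) [CommRing C] [Algebra A C] [Algebra B C]
    [IsScalarTower A B C] (h : Function.Surjective (d.baseChange B)) :
    (C ⊗[B] ker (d.baseChange B)) ≃ₗ[C] ker (d.baseChange C) :=
  (kerBaseChange C _ h).trans
    ((AlgebraTensorModule.cancelBaseChange A B C C P).ofSubmodules _ _ (by
      rw [baseChange_baseChange]
      ext x
      simp only [Submodule.mem_map_equiv, mem_ker, LinearMap.comp_apply, LinearEquiv.coe_coe,
        LinearEquiv.map_eq_zero_iff, LinearEquiv.apply_symm_apply]))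

end Surjective

namespace Replacement

variable (R : Replacement d) [Module.Projective A P] [Module.Projective A N]

/-- `h⁰ - h¹` at a point. -/
def euler (p : PrimeSpectrum A) : ℤ := (Module.rankAtStalk (R := A) R.K p : ℤ) - R.n

theorem isLocallyConstant_euler : IsLocallyConstant R.euler := by
  have := R.finite
  have := R.projective
  have := Module.finitePresentation_of_projective A R.K
  exact (Module.isLocallyConstant_rankAtStalk (R := A) (M := R.K)).comp fun m => (m : ℤ) - R.n

theorem finrank_ker_sub_finrank_coker (L : Type w) [Field L] [Algebra A L]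
    (p : PrimeSpectrum A) (hp : p.asIdeal = RingHom.ker (algebraMap A L)) :
    (Module.finrank L (ker (d.baseChange L)) : ℤ) -
      Module.finrank L ((L ⊗[A] N) ⧸ range (d.baseChange L)) = R.euler p := by
  have := R.finite
  have := R.projective
  have hK : Module.finrank L (L ⊗[A] R.K) = Module.rankAtStalk (R := A) R.K p := by
    let q : PrimeSpectrum L := ⟨⊥, Ideal.isPrime_bot⟩
    have h := Module.rankAtStalk_baseChange (R := A) (M := R.K) q
    rw [Module.rankAtStalk_eq_finrank_of_free] at h
    rw [show p = q.comap (algebraMap A L) from PrimeSpectrum.ext hp, ← h]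
    rfl
  have hg := (R.g.baseChange L).finrank_range_add_finrank_ker
  have hq := Submodule.finrank_quotient_add_finrank (range (R.g.baseChange L))
  rw [← (R.kerEquiv L).finrank_eq, ← (R.cokerEquiv L).finrank_eq, euler, ← hK]
  have hn : Module.finrank L (L ⊗[A] (Fin R.n → A)) = R.n := by
    rcases subsingleton_or_nontrivial A with hA | hA
    · exact absurd (congrArg (algebraMap A L) (Subsingleton.elim (1 : A) 0)) (by simp)
    · rw [Module.finrank_baseChange, Module.finrank_fin_fun]
  omega

end Replacement

/-- `h⁰ - h¹` of the fibres is locally constant. -/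
theorem IsFiniteComplex.exists_euler [Module.Projective A P] [Module.Projective A N]
    (h : IsFiniteComplex d) : ∃ χ : PrimeSpectrum A → ℤ, IsLocallyConstant χ ∧
      ∀ (L : Type w) [Field L] [Algebra A L] (p : PrimeSpectrum A),
        p.asIdeal = RingHom.ker (algebraMap A L) →
          (Module.finrank L (ker (d.baseChange L)) : ℤ) -
            Module.finrank L ((L ⊗[A] N) ⧸ range (d.baseChange L)) = χ p := by
  obtain ⟨R⟩ := h.nonempty_replacement
  exact ⟨R.euler, R.isLocallyConstant_euler, fun L _ _ p hp =>
    R.finrank_ker_sub_finrank_coker L p hp⟩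

/-- Where `H¹ = 0`, `H⁰` is finite projective. -/
theorem IsFiniteComplex.finite_projective_ker [Module.Projective A P] [Module.Projective A N]
    (h : IsFiniteComplex d) (B : Type w) [CommRing B] [Algebra A B]
    (hs : Function.Surjective (d.baseChange B)) :
    Module.Finite B (ker (d.baseChange B)) ∧ Module.Projective B (ker (d.baseChange B)) := by
  obtain ⟨R⟩ := h.nonempty_replacement
  exact R.finite_projective_ker B hs

end Fermat.Agent.Row24

end
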