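import Mathlib.LinearAlgebra.TensorProduct.RightExactness
import Mathlib.LinearAlgebra.TensorProduct.Tower
import Mathlib.LinearAlgebra.Isomorphisms
import Mathlib.Algebra.Module.Projective
import Mathlib.RingTheory.Finiteness.Basic
import Mathlib.RingTheory.Finiteness.Prod
import Mathlib.RingTheory.TensorProduct.Finite
import Mathlib.RingTheory.Flat.Basic

/-!
# Two-term complexes of projective modules with finite cohomology

For `d : P → N`: `H⁰ = ker d`, `H¹ = N ⧸ range d`. If `H¹` is finite and preimages of finitely
generated submodules lie in finitely generated ones, the complex is replaced by one of finitely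
generated projective modules `K → Aⁿ`, with the same cohomology after every base change.
-/

set_option autoImplicit false

noncomputable section

open TensorProduct LinearMap

namespace Fermat.Agent.Row24

universe u v w

variable {A : Type u} [CommRing A] {P N : Type v} [AddCommGroup P] [Module A P] [AddCommGroup N]
  [Module A N]

/-- Cohomology is finite, in the form stable for the replacement by a perfect complex. -/
structure IsFiniteComplex (d : P →ₗ[A] N) : Prop where
  finite_coker : Module.Finite A (N ⧸ range d)
  fg_comap : ∀ S : Submodule A N, S.FG → ∃ V : Submodule A P, V.FG ∧ S.comap d ≤ V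

section Split

variable (B : Type w) [CommRing B] [Algebra A B]
  {Q : Type*} [AddCommGroup Q] [Module A Q] {M : Type*} [AddCommGroup M] [Module A M]

/-- A surjection onto a projective module has a retraction of its kernel. -/
theorem exists_retraction_ker [Module.Projective A M] (e : Q →ₗ[A] M)
    (he : Function.Surjective e) :
    ∃ π : Q →ₗ[A] ker e, π ∘ₗ (ker e).subtype = LinearMap.id := by
  obtain ⟨s, hs⟩ := Module.projective_lifting_property e LinearMap.id he
  have hmem : ∀ q : Q, ((LinearMap.id : Q →ₗ[A] Q) - s ∘ₗ e) q ∈ ker e := fun q => by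
    have h := LinearMap.congr_fun hs (e q)
    simp only [LinearMap.comp_apply, LinearMap.id_apply] at h
    simp [mem_ker, h]
  refine ⟨(LinearMap.id - s ∘ₗ e).codRestrict (ker e) hmem, LinearMap.ext fun q => ?_⟩
  exact Subtype.ext (by simp [mem_ker.1 q.2])

theorem projective_ker [Module.Projective A M] [Module.Projective A Q] (e : Q →ₗ[A] M)
    (he : Function.Surjective e) : Module.Projective A (ker e) := by
  obtain ⟨π, hπ⟩ := exists_retraction_ker e he
  exact Module.Projective.of_split (ker e).subtype π hπ

theorem finite_ker_of_le [Module.Projective A M] (e : Q →ₗ[A] M) (he : Function.Surjective e)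
    {V : Submodule A Q} (hV : V.FG) (hle : ker e ≤ V) : Module.Finite A (ker e) := by
  obtain ⟨π, hπ⟩ := exists_retraction_ker e he
  have hVf : Module.Finite A V := Module.Finite.iff_fg.2 hV
  refine Module.Finite.of_surjective (π ∘ₗ V.subtype) fun k => ⟨⟨k, hle k.2⟩, ?_⟩
  exact LinearMap.congr_fun hπ k

theorem baseChange_surjective {e : Q →ₗ[A] M} (he : Function.Surjective e) :
    Function.Surjective (e.baseChange B) := by
  rw [baseChange_eq_ltensor]
  exact LinearMap.lTensor_surjective B he

theorem injective_baseChange_subtype [Module.Projective A M] (e : Q →ₗ[A] M)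
    (he : Function.Surjective e) : Function.Injective ((ker e).subtype.baseChange B) := by
  obtain ⟨π, hπ⟩ := exists_retraction_ker e he
  refine Function.LeftInverse.injective (g := π.baseChange B) fun x => ?_
  rw [← LinearMap.comp_apply, ← baseChange_comp, hπ, baseChange_id, LinearMap.id_apply]

theorem range_baseChange_subtype (e : Q →ₗ[A] M) (he : Function.Surjective e) :
    range ((ker e).subtype.baseChange B) = ker (e.baseChange B) := by
  ext x
  have h := (lTensor_exact B (LinearMap.exact_subtype_ker_map e) he) x
  rw [mem_range, mem_ker, baseChange_eq_ltensor, baseChange_eq_ltensor]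
  exact h.symm

/-- Kernels of surjections onto projective modules commute with base change. -/
def kerBaseChange [Module.Projective A M] (e : Q →ₗ[A] M) (he : Function.Surjective e) :
    (B ⊗[A] ker e) ≃ₗ[B] ker (e.baseChange B) :=
  (LinearEquiv.ofInjective _ (injective_baseChange_subtype B e he)).trans
    (LinearEquiv.ofEq _ _ (range_baseChange_subtype B e he))

/-- Cokernels commute with base change. -/
def cokerBaseChange (e : Q →ₗ[A] M) :
    ((B ⊗[A] M) ⧸ range (e.baseChange B)) ≃ₗ[B] B ⊗[A] (M ⧸ range e) := by
  refine (Submodule.quotEquivOfEq _ _ ?_).trans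
    (((range e).mkQ.baseChange B).quotKerEquivOfSurjective
      (baseChange_surjective B (Submodule.mkQ_surjective _)))
  ext x
  have h := (lTensor_exact B (LinearMap.exact_map_mkQ_range e) (Submodule.mkQ_surjective _)) x
  rw [mem_range, mem_ker, baseChange_eq_ltensor, baseChange_eq_ltensor]
  exact h.symm

end Split

/-- A replacement of `d : P → N` by a complex `K → Aⁿ` of finite projective modules. -/
structure Replacement (d : P →ₗ[A] N) where
  n : ℕ
  s : (Fin n → A) →ₗ[A] N
  surj : Function.Surjective (d.coprod s)
  finite : Module.Finite A (ker (d.coprod s))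

namespace Replacement

variable {d : P →ₗ[A] N} (R : Replacement d)

/-- The module of degree zero. -/
abbrev K : Submodule A (P × (Fin R.n → A)) := ker (d.coprod R.s)

/-- The differential. -/
def g : R.K →ₗ[A] (Fin R.n → A) := LinearMap.snd A P _ ∘ₗ R.K.subtype

theorem projective [Module.Projective A P] [Module.Projective A N] :
    Module.Projective A R.K :=
  projective_ker _ R.surj

section BaseChange

variable [Module.Projective A N] (B : Type w) [CommRing B] [Algebra A B]

/-- The component in `B ⊗ P`. -/
def fstB : (B ⊗[A] R.K) →ₗ[B] B ⊗[A] P :=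
  ((LinearMap.fst A P _) ∘ₗ R.K.subtype).baseChange B

omit [Module.Projective A N] in
theorem d_fstB (k : B ⊗[A] R.K) :
    d.baseChange B (R.fstB B k) = -R.s.baseChange B (R.g.baseChange B k) := by
  rw [eq_neg_iff_add_eq_zero, fstB, g, ← LinearMap.comp_apply, ← LinearMap.comp_apply,
    ← baseChange_comp, ← baseChange_comp, ← LinearMap.add_apply, ← baseChange_add]
  have e : d ∘ₗ (LinearMap.fst A P (Fin R.n → A)) ∘ₗ R.K.subtype +
      R.s ∘ₗ (LinearMap.snd A P _) ∘ₗ R.K.subtype = 0 :=
    LinearMap.ext fun x => mem_ker.1 x.2
  rw [e, baseChange_zero, LinearMap.zero_apply]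

omit [Module.Projective A N] in
theorem subtype_eq (k : B ⊗[A] R.K) :
    R.K.subtype.baseChange B k =
      (LinearMap.inl A P (Fin R.n → A)).baseChange B (R.fstB B k) +
        (LinearMap.inr A P (Fin R.n → A)).baseChange B (R.g.baseChange B k) := by
  rw [fstB, g, ← LinearMap.comp_apply, ← LinearMap.comp_apply, ← baseChange_comp,
    ← baseChange_comp, ← LinearMap.add_apply, ← baseChange_add]
  congr 2
  ext x <;> simp

omit [Module.Projective A N] in
theorem exists_of_mem_ker {w : B ⊗[A] (P × (Fin R.n → A))}
    (hw : (d.coprod R.s).baseChange B w = 0) :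
    ∃ k : B ⊗[A] R.K, R.fstB B k = (LinearMap.fst A P _).baseChange B w ∧
      R.g.baseChange B k = (LinearMap.snd A P _).baseChange B w := by
  have h : w ∈ range (R.K.subtype.baseChange B) := by
    rw [range_baseChange_subtype B _ R.surj]; exact hw
  obtain ⟨k, rfl⟩ := h
  refine ⟨k, ?_, ?_⟩
  · rw [fstB, ← LinearMap.comp_apply, ← baseChange_comp]
  · rw [g, ← LinearMap.comp_apply, ← baseChange_comp]

omit [Module.Projective A N] in
theorem coprod_inl (p : B ⊗[A] P) :
    (d.coprod R.s).baseChange B ((LinearMap.inl A P _).baseChange B p) = d.baseChange B p := by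
  rw [← LinearMap.comp_apply, ← baseChange_comp, LinearMap.coprod_inl]

omit [Module.Projective A N] in
theorem coprod_inr (a : B ⊗[A] (Fin R.n → A)) :
    (d.coprod R.s).baseChange B ((LinearMap.inr A P _).baseChange B a) = R.s.baseChange B a := by
  rw [← LinearMap.comp_apply, ← baseChange_comp, LinearMap.coprod_inr]

/-- `H⁰` of the replacement, after base change. -/
def kerEquiv : ker (R.g.baseChange B) ≃ₗ[B] ker (d.baseChange B) :=
  LinearEquiv.ofBijective
    ((R.fstB B ∘ₗ (ker (R.g.baseChange B)).subtype).codRestrict (ker (d.baseChange B)) fun k => by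
      rw [mem_ker, LinearMap.comp_apply, Submodule.subtype_apply, d_fstB, mem_ker.1 k.2, map_zero,
        neg_zero]) (by
    constructor
    · refine (injective_iff_map_eq_zero _).2 fun k hk => Subtype.ext ?_
      have hk' : R.fstB B (k : B ⊗[A] R.K) = 0 := congrArg Subtype.val hk
      refine injective_baseChange_subtype B _ R.surj ?_
      rw [R.subtype_eq B (k : B ⊗[A] R.K), hk', mem_ker.1 k.2]
      simp
    · rintro ⟨p, hp⟩
      obtain ⟨k, hk1, hk2⟩ := R.exists_of_mem_ker B
        (w := (LinearMap.inl A P _).baseChange B p) (by rw [R.coprod_inl]; exact hp)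
      have hfi : (LinearMap.fst A P (Fin R.n → A)).baseChange B
          ((LinearMap.inl A P _).baseChange B p) = p := by
        rw [← LinearMap.comp_apply, ← baseChange_comp, fst_comp_inl, baseChange_id,
          LinearMap.id_apply]
      have hsi : (LinearMap.snd A P (Fin R.n → A)).baseChange B
          ((LinearMap.inl A P _).baseChange B p) = 0 := by
        rw [← LinearMap.comp_apply, ← baseChange_comp, snd_comp_inl, baseChange_zero,
          LinearMap.zero_apply]
      exact ⟨⟨k, mem_ker.2 (hk2.trans hsi)⟩, Subtype.ext (hk1.trans hfi)⟩)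

/-- `H¹` of the replacement, after base change. -/
def cokerEquiv : ((B ⊗[A] (Fin R.n → A)) ⧸ range (R.g.baseChange B)) ≃ₗ[B]
    ((B ⊗[A] N) ⧸ range (d.baseChange B)) :=
  LinearEquiv.ofBijective
    (Submodule.mapQ _ _ (R.s.baseChange B) (by
      rintro _ ⟨k, rfl⟩
      refine ⟨-R.fstB B k, ?_⟩
      rw [map_neg, d_fstB, neg_neg])) (by
    constructor
    · refine (injective_iff_map_eq_zero _).2 fun x hx => ?_
      obtain ⟨a, rfl⟩ := Submodule.Quotient.mk_surjective _ x
      rw [Submodule.mapQ_apply, Submodule.Quotient.mk_eq_zero] at hx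
      obtain ⟨p, hp⟩ := hx
      obtain ⟨k, -, hk⟩ := R.exists_of_mem_ker B (w := (LinearMap.inr A P _).baseChange B a -
        (LinearMap.inl A P _).baseChange B p)
        (by rw [map_sub, R.coprod_inr, R.coprod_inl, hp, sub_self])
      rw [Submodule.Quotient.mk_eq_zero]
      refine ⟨k, hk.trans ?_⟩
      rw [map_sub, ← LinearMap.comp_apply, ← LinearMap.comp_apply, ← baseChange_comp,
        ← baseChange_comp, snd_comp_inr, snd_comp_inl, baseChange_id, baseChange_zero,
        LinearMap.id_apply, LinearMap.zero_apply, sub_zero]
    · intro y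
      obtain ⟨z, rfl⟩ := Submodule.Quotient.mk_surjective _ y
      obtain ⟨w, rfl⟩ := baseChange_surjective B R.surj z
      refine ⟨Submodule.Quotient.mk ((LinearMap.snd A P _).baseChange B w), ?_⟩
      rw [Submodule.mapQ_apply, Submodule.Quotient.eq]
      refine ⟨-(LinearMap.fst A P _).baseChange B w, ?_⟩
      rw [map_neg, eq_sub_iff_add_eq, neg_add_eq_iff_eq_add, ← LinearMap.comp_apply,
        ← LinearMap.comp_apply, ← baseChange_comp, ← baseChange_comp, ← LinearMap.add_apply,
        ← baseChange_add, ← coprod_comp_inl_inr (f := d.coprod R.s)]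
      congr 2
      ext x <;> simp)

include R in
/-- If `H¹` vanishes after base change, `H⁰` is finite projective. -/
theorem finite_projective_ker [Module.Projective A P]
    (h : Function.Surjective (d.baseChange B)) :
    Module.Finite B (ker (d.baseChange B)) ∧ Module.Projective B (ker (d.baseChange B)) := by
  have := R.finite
  have := R.projective
  have hg : Function.Surjective (R.g.baseChange B) := by
    have hsub : Subsingleton ((B ⊗[A] N) ⧸ range (d.baseChange B)) :=
      Submodule.Quotient.subsingleton_iff.mpr (range_eq_top.2 h)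
    have := (R.cokerEquiv B).toEquiv.subsingleton
    exact range_eq_top.1 (Submodule.Quotient.subsingleton_iff.mp this)
  have hp := projective_ker (A := B) _ hg
  obtain ⟨π, hπ⟩ := exists_retraction_ker (A := B) _ hg
  have hf : Module.Finite B (ker (R.g.baseChange B)) :=
    Module.Finite.of_surjective π fun k => ⟨k, LinearMap.congr_fun hπ k⟩
  exact ⟨Module.Finite.equiv (R.kerEquiv B), Module.Projective.of_equiv (R.kerEquiv B)⟩

end BaseChange

end Replacement

/-- Complexes with finite cohomology and projective terms have replacements. -/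
theorem IsFiniteComplex.nonempty_replacement [Module.Projective A N] {d : P →ₗ[A] N}
    (h : IsFiniteComplex d) : Nonempty (Replacement d) := by
  obtain ⟨n, q, hq⟩ := @Module.Finite.exists_fin' A (N ⧸ range d) _ _ _ h.finite_coker
  obtain ⟨s, hs⟩ := Module.projective_lifting_property (range d).mkQ q (Submodule.mkQ_surjective _)
  have hsurj : Function.Surjective (d.coprod s) := by
    intro z
    obtain ⟨a, ha⟩ := hq (Submodule.Quotient.mk z)
    have ha' : Submodule.Quotient.mk (s a) = (Submodule.Quotient.mk z : N ⧸ range d) :=
      (LinearMap.congr_fun hs a).trans ha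
    obtain ⟨p, hp⟩ := (Submodule.Quotient.eq _).1 ha'.symm
    exact ⟨(p, a), by rw [coprod_apply, hp, sub_add_cancel]⟩
  obtain ⟨V, hV, hle⟩ := h.fg_comap (range s) (by
    rw [← Submodule.map_top]; exact (Module.Finite.fg_top).map s)
  refine ⟨⟨n, s, hsurj, finite_ker_of_le _ hsurj
    (Submodule.FG.prod hV (Module.Finite.fg_top (R := A) (M := Fin n → A))) ?_⟩⟩
  rintro ⟨p, a⟩ hpa
  rw [mem_ker, coprod_apply, ← eq_neg_iff_add_eq_zero] at hpa
  exact ⟨hle (by rw [Submodule.mem_comap, hpa]; exact neg_mem ⟨a, rfl⟩), Submodule.mem_top⟩

end Fermat.Agent.Row24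

end
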